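import Mathlib

/-!
# S52 / Part A (Frobenius relation, Manin's proof): degree of a rational function

`ratDeg R = max (natDegree R.num) (natDegree R.denom)` and its multiplicativity under
composition (piece A2d of `coord/S52-route.md`).
-/

set_option autoImplicit false

open Polynomial

namespace Fermat.Agent.S52.H621

variable {F : Type*} [Field F]

/-- The degree (height) of a rational function: `max (deg num) (deg denom)`. -/
noncomputable def ratDeg (R : RatFunc F) : ℕ := max R.num.natDegree R.denom.natDegree

theorem ratDeg_def (R : RatFunc F) : ratDeg R = max R.num.natDegree R.denom.natDegree := rfl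

@[simp] theorem ratDeg_zero : ratDeg (0 : RatFunc F) = 0 := by
  simp [ratDeg]

@[simp] theorem ratDeg_one : ratDeg (1 : RatFunc F) = 0 := by
  simp [ratDeg]

@[simp] theorem ratDeg_algebraMap (p : F[X]) :
    ratDeg (algebraMap F[X] (RatFunc F) p) = p.natDegree := by
  simp [ratDeg]

@[simp] theorem ratDeg_C (c : F) : ratDeg (RatFunc.C c : RatFunc F) = 0 := by
  have : (RatFunc.C c : RatFunc F) = algebraMap F[X] (RatFunc F) (Polynomial.C c) := by
    simp [RatFunc.algebraMap_C]
  rw [this, ratDeg_algebraMap, natDegree_C]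

@[simp] theorem ratDeg_X : ratDeg (RatFunc.X : RatFunc F) = 1 := by
  have : (RatFunc.X : RatFunc F) = algebraMap F[X] (RatFunc F) Polynomial.X := by
    simp [RatFunc.algebraMap_X]
  rw [this, ratDeg_algebraMap, natDegree_X]

/-- The degree of a quotient of coprime polynomials. -/
theorem ratDeg_div_of_isCoprime (N D : F[X]) (hD : D ≠ 0) (h : IsCoprime N D) :
    ratDeg (algebraMap F[X] (RatFunc F) N / algebraMap F[X] (RatFunc F) D)
      = max N.natDegree D.natDegree := by
  classical
  have hg : IsUnit (gcd N D) := by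
    rw [← EuclideanDomain.gcd_isUnit_iff] at h
    -- `gcd` here is `GCDMonoid.gcd`
    have h1 : gcd N D ∣ EuclideanDomain.gcd N D :=
      EuclideanDomain.dvd_gcd (gcd_dvd_left N D) (gcd_dvd_right N D)
    exact isUnit_of_dvd_unit h1 h
  have hDg : D / gcd N D ≠ 0 := right_div_gcd_ne_zero hD
  have hc : (D / gcd N D).leadingCoeff⁻¹ ≠ 0 := inv_ne_zero (leadingCoeff_ne_zero.mpr hDg)
  have key : ∀ p : F[X], gcd N D ∣ p → (p / gcd N D).natDegree = p.natDegree := by
    intro p hp
    obtain ⟨q, rfl⟩ := hp
    have hg0 : gcd N D ≠ 0 := hg.ne_zero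
    rw [← EuclideanDomain.eq_div_of_mul_eq_right hg0 rfl]
    by_cases hq : q = 0
    · simp [hq]
    · rw [natDegree_mul hg0 hq, natDegree_eq_zero_of_isUnit hg, zero_add]
  rw [ratDeg, RatFunc.num_div, RatFunc.denom_div N hD, natDegree_C_mul hc, natDegree_C_mul hc,
    key N (gcd_dvd_left N D), key D (gcd_dvd_right N D)]

/-- The degree of a quotient of polynomials with a common factor removed. -/
theorem ratDeg_div_of_eq_mul (N D G N' D' : F[X]) (hD : D ≠ 0) (hN : N = G * N')
    (hD' : D = G * D') (h : IsCoprime N' D') :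
    ratDeg (algebraMap F[X] (RatFunc F) N / algebraMap F[X] (RatFunc F) D)
      = max N'.natDegree D'.natDegree := by
  have hG : G ≠ 0 := by rintro rfl; exact hD (by simp [hD'])
  have hD0 : D' ≠ 0 := by rintro rfl; exact hD (by simp [hD'])
  rw [← ratDeg_div_of_isCoprime N' D' hD0 h, hN, hD', map_mul, map_mul,
    mul_div_mul_left _ _ (RatFunc.algebraMap_ne_zero hG)]

/-! ### Homogenisation -/

/-- `homog n N P Q = ∑_{i ≤ n} N_i P^i Q^(n-i)`, the homogenisation of `N` in degree `n`
evaluated at `(P, Q)`. -/
noncomputable def homog {R : Type*} [CommRing R] [Algebra F R] (n : ℕ) (N : F[X]) (P Q : R) : R :=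
  ∑ i ∈ Finset.range (n + 1), algebraMap F R (N.coeff i) * P ^ i * Q ^ (n - i)

theorem homog_map {R S : Type*} [CommRing R] [Algebra F R] [CommRing S] [Algebra F S]
    (φ : R →ₐ[F] S) (n : ℕ) (N : F[X]) (P Q : R) :
    φ (homog n N P Q) = homog n N (φ P) (φ Q) := by
  simp [homog, map_sum]

/-- In a field: if `q ≠ 0` then `homog n N p q = q ^ n * N(p/q)`. -/
theorem homog_eq_of_ne_zero {L : Type*} [Field L] [Algebra F L] (n : ℕ) (N : F[X])
    (hn : N.natDegree ≤ n) (p q : L) (hq : q ≠ 0) :
    homog n N p q = q ^ n * aeval (p / q) N := by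
  rw [aeval_eq_sum_range' (Nat.lt_succ_of_le hn), Finset.mul_sum, homog]
  refine Finset.sum_congr rfl fun i hi => ?_
  have hi' : i ≤ n := Nat.lt_succ_iff.mp (Finset.mem_range.mp hi)
  rw [Algebra.smul_def, div_pow]
  have : q ^ n = q ^ (n - i) * q ^ i := by rw [← pow_add, Nat.sub_add_cancel hi']
  rw [this]
  field_simp

/-- `homog n N p 0 = N_n p^n`. -/
theorem homog_zero_right {R : Type*} [CommRing R] [Algebra F R] (n : ℕ) (N : F[X]) (p : R) :
    homog n N p 0 = algebraMap F R (N.coeff n) * p ^ n := by
  rw [homog, Finset.sum_eq_single n]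
  · simp
  · intro i hi hin
    have hi' : i < n := lt_of_le_of_ne (Nat.lt_succ_iff.mp (Finset.mem_range.mp hi)) hin
    have : n - i ≠ 0 := by omega
    simp [zero_pow this]
  · intro h; exact absurd (Finset.mem_range.mpr (Nat.lt_succ_self n)) h

/-- Key non-vanishing: coprime `N`, `D` with `max (deg N) (deg D) = n` have no common
"projective zero". -/
theorem homog_ne_zero_of_isCoprime {L : Type*} [Field L] [Algebra F L] (N D : F[X])
    (h : IsCoprime N D) (n : ℕ) (hn : max N.natDegree D.natDegree = n) (p q : L)
    (hpq : p ≠ 0 ∨ q ≠ 0) : homog n N p q ≠ 0 ∨ homog n D p q ≠ 0 := by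
  by_contra hcon
  push Not at hcon
  obtain ⟨h1, h2⟩ := hcon
  have hNn : N.natDegree ≤ n := hn ▸ le_max_left _ _
  have hDn : D.natDegree ≤ n := hn ▸ le_max_right _ _
  by_cases hq : q = 0
  · subst hq
    have hp : p ≠ 0 := by tauto
    rw [homog_zero_right] at h1 h2
    have hpn : p ^ n ≠ 0 := pow_ne_zero n hp
    have h1' : N.coeff n = 0 := by
      have := (mul_eq_zero.mp h1).resolve_right hpn
      exact (map_eq_zero (algebraMap F L)).mp this
    have h2' : D.coeff n = 0 := by
      have := (mul_eq_zero.mp h2).resolve_right hpn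
      exact (map_eq_zero (algebraMap F L)).mp this
    -- both leading coefficients vanish: contradiction with `max = n`
    rcases max_cases N.natDegree D.natDegree with ⟨hm, -⟩ | ⟨hm, -⟩
    · have hNd : N.natDegree = n := hm ▸ hn
      have hN0 : N = 0 := by
        by_contra hN0
        have := leadingCoeff_ne_zero.mpr hN0
        rw [leadingCoeff, hNd] at this
        exact this h1'
      subst hN0
      have hn0 : n = 0 := by simpa using hNd.symm
      subst hn0
      have hD0 : D = 0 := by
        have : D.natDegree = 0 := Nat.le_zero.mp hDn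
        rw [eq_C_of_natDegree_eq_zero this, h2', C_0]
      subst hD0
      obtain ⟨u, v, huv⟩ := h
      simp at huv
    · have hDd : D.natDegree = n := hm ▸ hn
      have hD0 : D = 0 := by
        by_contra hD0
        have := leadingCoeff_ne_zero.mpr hD0
        rw [leadingCoeff, hDd] at this
        exact this h2'
      subst hD0
      have hn0 : n = 0 := by simpa using hDd.symm
      subst hn0
      have hN0 : N = 0 := by
        have : N.natDegree = 0 := Nat.le_zero.mp hNn
        rw [eq_C_of_natDegree_eq_zero this, h1', C_0]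
      subst hN0
      obtain ⟨u, v, huv⟩ := h
      simp at huv
  · rw [homog_eq_of_ne_zero n N hNn p q hq] at h1
    rw [homog_eq_of_ne_zero n D hDn p q hq] at h2
    have hqn : q ^ n ≠ 0 := pow_ne_zero n hq
    have h1' := (mul_eq_zero.mp h1).resolve_left hqn
    have h2' := (mul_eq_zero.mp h2).resolve_left hqn
    obtain ⟨u, v, huv⟩ := h
    have := congrArg (aeval (p / q)) huv
    simp [h1', h2'] at this

end Fermat.Agent.S52.H621
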