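import Mathlib
import Fermat.Agent.S52.H621.RatDeg

/-!
# S52 / Part A: Manin's count (piece A2c)

For an odd prime `p`, `F = ZMod p` and `f = X³ + A X + B` with `4A³ + 27B² ≠ 0`, the rational
function

  `R = f (f^((p-1)/2) + 1)² / (X^p - X)² - X^p - X`

(the `x`-coordinate of `Frob(P₀) - P₀` for the generic point `P₀ = (x, y)`) has degree exactly
`#{(x, y) ∈ F² | y² = f(x)} + 1 = #E(F_p)`.
-/

set_option autoImplicit false

open Polynomial

namespace Fermat.Agent.S52.H621

section Generalities

variable (p : ℕ) [Fact p.Prime]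

theorem X_pow_sub_X_eq_prod : (X ^ p - X : (ZMod p)[X]) = ∏ c : ZMod p, (X - C c) := by
  have hmonic : (X ^ p - X : (ZMod p)[X]).Monic := by
    apply monic_X_pow_sub
    rw [degree_X]
    exact_mod_cast (Fact.out : p.Prime).one_lt
  have hroots : (X ^ p - X : (ZMod p)[X]).roots = Finset.univ.val := by
    have := FiniteField.roots_X_pow_card_sub_X (ZMod p)
    rwa [ZMod.card] at this
  have hcard : Multiset.card (X ^ p - X : (ZMod p)[X]).roots
      = (X ^ p - X : (ZMod p)[X]).natDegree := by
    rw [hroots, FiniteField.X_pow_card_sub_X_natDegree_eq _ (Fact.out : p.Prime).one_lt]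
    simp [ZMod.card]
  have := prod_multiset_X_sub_C_of_monic_of_roots_card_eq hmonic hcard
  rw [← this, hroots]
  rfl

/-- number of square roots in `ZMod p`, `p` odd -/
theorem card_sqrt (hp2 : p ≠ 2) (a : ZMod p) :
    (Finset.univ.filter fun y : ZMod p => y ^ 2 = a).card
      = if a = 0 then 1 else if IsSquare a then 2 else 0 := by
  classical
  by_cases ha : a = 0
  · subst ha
    rw [if_pos rfl]
    have : (Finset.univ.filter fun y : ZMod p => y ^ 2 = 0) = {0} := by
      ext y
      simp
    rw [this, Finset.card_singleton]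
  · rw [if_neg ha]
    by_cases hsq : IsSquare a
    · rw [if_pos hsq]
      obtain ⟨b, rfl⟩ := hsq
      have hb : b ≠ 0 := by rintro rfl; simp at ha
      have hbb : b ≠ -b := by
        intro h
        have h2 : (2 : ZMod p) * b = 0 := by
          have : b + b = 0 := by nth_rewrite 1 [h]; simp
          rw [two_mul]; exact this
        rcases mul_eq_zero.mp h2 with h3 | h3
        · have : ((2 : ℕ) : ZMod p) = 0 := by exact_mod_cast h3
          rw [ZMod.natCast_eq_zero_iff] at this
          have := (Nat.prime_dvd_prime_iff_eq (Fact.out : p.Prime) Nat.prime_two).mp this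
          exact hp2 this
        · exact hb h3
      have : (Finset.univ.filter fun y : ZMod p => y ^ 2 = b * b) = {b, -b} := by
        ext y
        simp only [Finset.mem_filter, Finset.mem_univ, true_and, Finset.mem_insert,
          Finset.mem_singleton]
        rw [← sq, sq_eq_sq_iff_eq_or_eq_neg]
      rw [this, Finset.card_pair hbb]
    · rw [if_neg hsq]
      rw [Finset.card_eq_zero, Finset.filter_eq_empty_iff]
      intro y _ hy
      exact hsq ⟨y, by rw [← hy, sq]⟩

end Generalities

section Manin

variable (p : ℕ) [Fact p.Prime] (A B : ZMod p)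

/-- the cubic `X³ + A X + B` -/
noncomputable def cubic : (ZMod p)[X] := X ^ 3 + C A * X + C B

/-- numerator of Manin's function -/
noncomputable def maninNum : (ZMod p)[X] :=
  cubic p A B * (cubic p A B ^ ((p - 1) / 2) + 1) ^ 2 - (X ^ p + X) * (X ^ p - X) ^ 2

/-- denominator of Manin's function -/
noncomputable def maninDen : (ZMod p)[X] := (X ^ p - X) ^ 2

/-- Manin's rational function `x(Frob P₀ - P₀)`. -/
noncomputable def maninFun : RatFunc (ZMod p) :=
  algebraMap _ _ (maninNum p A B) / algebraMap _ _ (maninDen p)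

/-- the local cancellation exponent at `c` -/
noncomputable def cancelExp (c : ZMod p) : ℕ :=
  open Classical in
  if (cubic p A B).eval c = 0 then 1 else if IsSquare ((cubic p A B).eval c) then 0 else 2

theorem cancelExp_le (c : ZMod p) : cancelExp p A B c ≤ 2 := by
  unfold cancelExp
  split_ifs <;> omega

theorem eval_cubic (c : ZMod p) : (cubic p A B).eval c = c ^ 3 + A * c + B := by
  simp [cubic]

theorem natDegree_cubic : (cubic p A B).natDegree = 3 := by
  unfold cubic
  compute_degree!

theorem cubic_monic : (cubic p A B).Monic := by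
  unfold cubic
  monicity!

theorem cubic_ne_zero : cubic p A B ≠ 0 := (cubic_monic p A B).ne_zero

theorem maninDen_eq_prod : maninDen p = ∏ c : ZMod p, (X - C c) ^ 2 := by
  rw [maninDen, X_pow_sub_X_eq_prod, Finset.prod_pow]

/-- the common factor of numerator and denominator -/
noncomputable def cancelPoly : (ZMod p)[X] := ∏ c : ZMod p, (X - C c) ^ cancelExp p A B c

/-- the reduced denominator -/
noncomputable def redDen : (ZMod p)[X] := ∏ c : ZMod p, (X - C c) ^ (2 - cancelExp p A B c)

theorem maninDen_eq : maninDen p = cancelPoly p A B * redDen p A B := by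
  rw [maninDen_eq_prod, cancelPoly, redDen, ← Finset.prod_mul_distrib]
  refine Finset.prod_congr rfl fun c _ => ?_
  rw [← pow_add, Nat.add_sub_cancel' (cancelExp_le p A B c)]

theorem cancelPoly_monic : (cancelPoly p A B).Monic :=
  monic_prod_of_monic _ _ fun c _ => (monic_X_sub_C c).pow _

theorem redDen_monic : (redDen p A B).Monic :=
  monic_prod_of_monic _ _ fun c _ => (monic_X_sub_C c).pow _

theorem natDegree_cancelPoly :
    (cancelPoly p A B).natDegree = ∑ c : ZMod p, cancelExp p A B c := by
  rw [cancelPoly, natDegree_prod_of_monic _ _ fun c _ => (monic_X_sub_C c).pow _]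
  refine Finset.sum_congr rfl fun c _ => ?_
  rw [natDegree_pow, natDegree_X_sub_C, mul_one]

theorem natDegree_redDen :
    (redDen p A B).natDegree = ∑ c : ZMod p, (2 - cancelExp p A B c) := by
  rw [redDen, natDegree_prod_of_monic _ _ fun c _ => (monic_X_sub_C c).pow _]
  refine Finset.sum_congr rfl fun c _ => ?_
  rw [natDegree_pow, natDegree_X_sub_C, mul_one]

theorem eval_maninNum (c : ZMod p) :
    (maninNum p A B).eval c
      = (cubic p A B).eval c * ((cubic p A B).eval c ^ ((p - 1) / 2) + 1) ^ 2 := by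
  simp [maninNum, ZMod.pow_card]

variable {p} in
theorem half_spec (hp2 : p ≠ 2) : 2 * ((p - 1) / 2) + 1 = p ∧ (p - 1) / 2 = p / 2 ∧
    1 ≤ (p - 1) / 2 := by
  have h1 := (Fact.out : p.Prime).two_le
  have h2 : p % 2 = 1 := (Fact.out : p.Prime).eq_two_or_odd.resolve_left hp2
  omega

/-- divisibility of the numerator by the local factors -/
theorem pow_cancelExp_dvd_maninNum (hp2 : p ≠ 2) (c : ZMod p) :
    (X - C c) ^ cancelExp p A B c ∣ maninNum p A B := by
  classical
  obtain ⟨-, hm, -⟩ := half_spec hp2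
  unfold cancelExp
  by_cases h0 : (cubic p A B).eval c = 0
  · rw [if_pos h0, pow_one, dvd_iff_isRoot, IsRoot.def, eval_maninNum, h0, zero_mul]
  · rw [if_neg h0]
    by_cases hsq : IsSquare ((cubic p A B).eval c)
    · rw [if_pos hsq, pow_zero]; exact one_dvd _
    · rw [if_neg hsq]
      have hneg : (cubic p A B).eval c ^ ((p - 1) / 2) = -1 := by
        rw [hm]
        rcases ZMod.pow_div_two_eq_neg_one_or_one p h0 with h | h
        · exact absurd ((ZMod.euler_criterion p h0).mpr h) hsq
        · exact h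
      have h1 : (X - C c) ∣ cubic p A B ^ ((p - 1) / 2) + 1 := by
        rw [dvd_iff_isRoot, IsRoot.def, eval_add, eval_pow, hneg, eval_one]
        ring
      have h2 : (X - C c) ∣ (X ^ p - X : (ZMod p)[X]) := by
        rw [dvd_iff_isRoot, IsRoot.def, eval_sub, eval_pow, eval_X, ZMod.pow_card, sub_self]
      unfold maninNum
      exact dvd_sub (dvd_mul_of_dvd_right (pow_dvd_pow_of_dvd h1 2) _)
        (dvd_mul_of_dvd_right (pow_dvd_pow_of_dvd h2 2) _)

theorem cancelPoly_dvd_maninNum (hp2 : p ≠ 2) : cancelPoly p A B ∣ maninNum p A B := by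
  unfold cancelPoly
  refine Finset.prod_dvd_of_coprime ?_ fun c _ => pow_cancelExp_dvd_maninNum p A B hp2 c
  intro c _ c' _ hcc'
  exact (pairwise_coprime_X_sub_C (K := ZMod p) (s := id) Function.injective_id hcc').pow

/-- Frobenius on the cubic -/
theorem cubic_pow_p : cubic p A B ^ p = X ^ (3 * p) + C A * X ^ p + C B := by
  unfold cubic
  rw [add_pow_char, add_pow_char, mul_pow, ← C_pow, ← C_pow, ZMod.pow_card, ZMod.pow_card,
    ← pow_mul]

theorem maninNum_eq (hp2 : p ≠ 2) :
    maninNum p A B = X ^ (2 * p + 1)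
      + (X ^ (p + 2) - X ^ 3 + C A * X ^ p + C B
          + 2 * cubic p A B ^ ((p - 1) / 2 + 1) + cubic p A B) := by
  obtain ⟨hm, -, -⟩ := half_spec hp2
  have h1 : cubic p A B * (cubic p A B ^ ((p - 1) / 2) + 1) ^ 2
      = cubic p A B ^ (2 * ((p - 1) / 2) + 1) + 2 * cubic p A B ^ ((p - 1) / 2 + 1)
        + cubic p A B := by ring
  rw [hm, cubic_pow_p] at h1
  rw [maninNum, h1]
  ring

theorem natDegree_maninNum (hp2 : p ≠ 2) : (maninNum p A B).natDegree = 2 * p + 1 := by
  obtain ⟨hm, -, -⟩ := half_spec hp2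
  have hp1 := (Fact.out : p.Prime).one_lt
  rw [maninNum_eq p A B hp2]
  have hlow : (X ^ (p + 2) - X ^ 3 + C A * X ^ p + C B
          + 2 * cubic p A B ^ ((p - 1) / 2 + 1) + cubic p A B : (ZMod p)[X]).natDegree
        < 2 * p + 1 := by
    have e1 : (X ^ (p + 2) : (ZMod p)[X]).natDegree ≤ 2 * p := by
      rw [natDegree_X_pow]; omega
    have e2 : (X ^ 3 : (ZMod p)[X]).natDegree ≤ 2 * p := by
      rw [natDegree_X_pow]; omega
    have e3 : (C A * X ^ p : (ZMod p)[X]).natDegree ≤ 2 * p :=
      (natDegree_C_mul_le _ _).trans (by rw [natDegree_X_pow]; omega)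
    have e4 : (C B : (ZMod p)[X]).natDegree ≤ 2 * p := by
      rw [natDegree_C]; omega
    have e5 : (2 * cubic p A B ^ ((p - 1) / 2 + 1) : (ZMod p)[X]).natDegree ≤ 2 * p := by
      rw [two_mul]
      have e5' : (cubic p A B ^ ((p - 1) / 2 + 1)).natDegree ≤ 2 * p := by
        refine natDegree_pow_le.trans ?_
        rw [natDegree_cubic]
        omega
      exact natDegree_add_le_of_degree_le e5' e5'
    have e6 : (cubic p A B).natDegree ≤ 2 * p := by
      rw [natDegree_cubic]; omega
    have e12 : (X ^ (p + 2) - X ^ 3 : (ZMod p)[X]).natDegree ≤ 2 * p :=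
      (natDegree_sub_le _ _).trans (max_le e1 e2)
    have := natDegree_add_le_of_degree_le (natDegree_add_le_of_degree_le
      (natDegree_add_le_of_degree_le (natDegree_add_le_of_degree_le e12 e3) e4) e5) e6
    omega
  rw [natDegree_add_eq_left_of_natDegree_lt (by rwa [natDegree_X_pow]), natDegree_X_pow]

theorem maninNum_ne_zero (hp2 : p ≠ 2) : maninNum p A B ≠ 0 := by
  intro h
  have := natDegree_maninNum p A B hp2
  rw [h, natDegree_zero] at this
  omega

/-- the derivative of the numerator at a root of the cubic -/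
theorem eval_derivative_maninNum (hp2 : p ≠ 2) (c : ZMod p)
    (hc : (cubic p A B).eval c = 0) :
    (derivative (maninNum p A B)).eval c = (derivative (cubic p A B)).eval c := by
  obtain ⟨-, -, hm1⟩ := half_spec hp2
  have hW : (X ^ p - X : (ZMod p)[X]).eval c = 0 := by
    rw [eval_sub, eval_pow, eval_X, ZMod.pow_card, sub_self]
  have hm0 : (p - 1) / 2 ≠ 0 := by omega
  unfold maninNum
  rw [derivative_sub, derivative_mul, derivative_mul, eval_sub, eval_add, eval_add, eval_mul,
    eval_mul, eval_mul, eval_mul, hc, zero_mul, add_zero, eval_pow (n := 2), eval_pow (n := 2), hW,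
    derivative_pow (p := X ^ p - X), eval_mul, eval_mul, eval_pow, hW]
  simp [hc, hm0]

/-- the cubic has simple roots -/
theorem eval_derivative_cubic_ne_zero (hΔ : 4 * A ^ 3 + 27 * B ^ 2 ≠ 0) (c : ZMod p)
    (hc : (cubic p A B).eval c = 0) : (derivative (cubic p A B)).eval c ≠ 0 := by
  intro hd
  apply hΔ
  have h1 : c ^ 3 + A * c + B = 0 := by rw [← eval_cubic]; exact hc
  have h2 : 3 * c ^ 2 + A = 0 := by
    have : (derivative (cubic p A B)).eval c = 3 * c ^ 2 + A := by
      simp [cubic, derivative_pow]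
    rw [← this]; exact hd
  linear_combination (4 * (3 * c ^ 2 + A) ^ 2 - 9 * (3 * c ^ 2 + A) * c ^ 2
    - 54 * (c ^ 3 + A * c + B) * c) * h2 + (27 * (c ^ 3 + A * c + B) + 108 * c ^ 3) * h1

theorem eval_cancelPoly_eq_zero (c : ZMod p) (hc : cancelExp p A B c ≠ 0) :
    (cancelPoly p A B).eval c = 0 := by
  rw [cancelPoly, eval_prod]
  refine Finset.prod_eq_zero (Finset.mem_univ c) ?_
  rw [eval_pow, eval_sub, eval_X, eval_C, sub_self, zero_pow hc]

theorem two_ne_zero_zmod (hp2 : p ≠ 2) : (2 : ZMod p) ≠ 0 := by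
  intro h
  have : ((2 : ℕ) : ZMod p) = 0 := by exact_mod_cast h
  rw [ZMod.natCast_eq_zero_iff] at this
  exact hp2 ((Nat.prime_dvd_prime_iff_eq (Fact.out : p.Prime) Nat.prime_two).mp this)

/-- the reduced numerator does not vanish at the roots of the reduced denominator -/
theorem eval_redNum_ne_zero (hp2 : p ≠ 2) (hΔ : 4 * A ^ 3 + 27 * B ^ 2 ≠ 0)
    (N' : (ZMod p)[X]) (hN' : maninNum p A B = cancelPoly p A B * N') (c : ZMod p)
    (hc : cancelExp p A B c < 2) : N'.eval c ≠ 0 := by
  classical
  obtain ⟨-, hm, -⟩ := half_spec hp2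
  intro h0
  by_cases hf : (cubic p A B).eval c = 0
  · -- simple root: derivative argument
    have he : cancelExp p A B c ≠ 0 := by
      unfold cancelExp; rw [if_pos hf]; exact one_ne_zero
    have h1 := eval_derivative_maninNum p A B hp2 c hf
    rw [hN', derivative_mul, eval_add, eval_mul, eval_mul, h0, mul_zero, zero_add,
      eval_cancelPoly_eq_zero p A B c he, zero_mul] at h1
    exact eval_derivative_cubic_ne_zero p A B hΔ c hf h1.symm
  · have hsq : IsSquare ((cubic p A B).eval c) := by
      by_contra hsq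
      unfold cancelExp at hc
      rw [if_neg hf, if_neg hsq] at hc
      omega
    have h1 : (cubic p A B).eval c ^ ((p - 1) / 2) = 1 := by
      rw [hm]; exact (ZMod.euler_criterion p hf).mp hsq
    have h2 := eval_maninNum p A B c
    rw [hN', eval_mul, h0, mul_zero, h1] at h2
    have h3 : (1 + 1 : ZMod p) = 2 := by norm_num
    rw [h3] at h2
    exact (mul_ne_zero hf (pow_ne_zero 2 (two_ne_zero_zmod p hp2))) h2.symm

theorem isCoprime_redNum_redDen (hp2 : p ≠ 2) (hΔ : 4 * A ^ 3 + 27 * B ^ 2 ≠ 0)
    (N' : (ZMod p)[X]) (hN' : maninNum p A B = cancelPoly p A B * N') :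
    IsCoprime N' (redDen p A B) := by
  unfold redDen
  refine IsCoprime.prod_right fun c _ => ?_
  by_cases hc : cancelExp p A B c < 2
  · refine IsCoprime.pow_right ?_
    refine ((irreducible_X_sub_C c).coprime_iff_not_dvd.mpr ?_).symm
    rw [dvd_iff_isRoot]
    exact eval_redNum_ne_zero p A B hp2 hΔ N' hN' c hc
  · have : 2 - cancelExp p A B c = 0 := by omega
    rw [this, pow_zero]
    exact isCoprime_one_right

/-- the number of affine points, fibrewise -/
theorem card_affine (hp2 : p ≠ 2) :
    Nat.card {q : ZMod p × ZMod p // q.2 ^ 2 = q.1 ^ 3 + A * q.1 + B}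
      = ∑ c : ZMod p, (2 - cancelExp p A B c) := by
  classical
  rw [Nat.card_eq_fintype_card, Fintype.card_subtype, Finset.card_filter,
    Fintype.sum_prod_type]
  refine Finset.sum_congr rfl fun c _ => ?_
  rw [← Finset.card_filter]
  have := card_sqrt p hp2 (c ^ 3 + A * c + B)
  simp only at this ⊢
  rw [this, cancelExp, eval_cubic]
  split_ifs <;> rfl

/-- **A2c (Manin's count)**: the degree of `x(Frob P₀ - P₀)` is the number of points of the
curve `y² = x³ + A x + B` over `F_p` (including the point at infinity). -/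
theorem ratDeg_maninFun (hp2 : p ≠ 2) (hΔ : 4 * A ^ 3 + 27 * B ^ 2 ≠ 0) :
    ratDeg (maninFun p A B)
      = Nat.card {q : ZMod p × ZMod p // q.2 ^ 2 = q.1 ^ 3 + A * q.1 + B} + 1 := by
  obtain ⟨N', hN'⟩ := cancelPoly_dvd_maninNum p A B hp2
  have hDen : maninDen p ≠ 0 := by
    rw [maninDen_eq p A B]
    exact mul_ne_zero (cancelPoly_monic p A B).ne_zero (redDen_monic p A B).ne_zero
  have hcop := isCoprime_redNum_redDen p A B hp2 hΔ N' hN'
  rw [maninFun, ratDeg_div_of_eq_mul _ _ (cancelPoly p A B) N' (redDen p A B) hDen hN'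
    (maninDen_eq p A B) hcop, card_affine p A B hp2]
  -- degrees
  have hN0 : N' ≠ 0 := by
    rintro rfl
    exact maninNum_ne_zero p A B hp2 (by rw [hN', mul_zero])
  have hdN : (cancelPoly p A B).natDegree + N'.natDegree = 2 * p + 1 := by
    rw [← natDegree_mul (cancelPoly_monic p A B).ne_zero hN0, ← hN', natDegree_maninNum p A B hp2]
  have hdD : (cancelPoly p A B).natDegree + (redDen p A B).natDegree = 2 * p := by
    rw [← natDegree_mul (cancelPoly_monic p A B).ne_zero (redDen_monic p A B).ne_zero,
      ← maninDen_eq, maninDen, natDegree_pow,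
      FiniteField.X_pow_card_sub_X_natDegree_eq _ (Fact.out : p.Prime).one_lt]
  rw [← natDegree_redDen]
  omega

end Manin

end Fermat.Agent.S52.H621
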