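import Mathlib
import Fermat.Prelude.Def_FLTPrelim_Modularity
import Fermat.Agent.S52.H621.Manin

/-!
# S52 / Part A: Manin's count in terms of `WeierstrassCurve.card` / `traceOfFrobenius`
-/

set_option autoImplicit false

open Polynomial

namespace Fermat.Agent.S52.H621

section

variable {F : Type*} [Field F]

/-- points of a Weierstrass curve with `Δ ≠ 0` = solutions of the equation + the point at
infinity -/
noncomputable def pointEquivOption (W : WeierstrassCurve.Affine F) (hΔ : W.Δ ≠ 0) :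
    W.Point ≃ Option {q : F × F // W.Equation q.1 q.2} where
  toFun
    | .zero => none
    | .some x y h => some ⟨(x, y), h.1⟩
  invFun
    | none => .zero
    | some q => .some q.1.1 q.1.2 ((W.equation_iff_nonsingular_of_Δ_ne_zero hΔ).mp q.2)
  left_inv := by rintro (_ | _) <;> rfl
  right_inv := by rintro (_ | _) <;> rfl

theorem card_point_eq [Finite F] (W : WeierstrassCurve.Affine F) (hΔ : W.Δ ≠ 0) :
    Nat.card W.Point = Nat.card {q : F × F // W.Equation q.1 q.2} + 1 := by
  rw [Nat.card_congr (pointEquivOption W hΔ), Finite.card_option]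

end

variable (p : ℕ) [Fact p.Prime]

/-- The short Weierstrass curve `y² = x³ + A x + B`. -/
def shortW (A B : ZMod p) : WeierstrassCurve (ZMod p) := ⟨0, 0, 0, A, B⟩

theorem shortW_Δ (A B : ZMod p) : (shortW p A B).Δ = -16 * (4 * A ^ 3 + 27 * B ^ 2) := by
  simp only [shortW, WeierstrassCurve.Δ, WeierstrassCurve.b₂, WeierstrassCurve.b₄,
    WeierstrassCurve.b₆, WeierstrassCurve.b₈]
  ring

theorem shortW_equation (A B x y : ZMod p) :
    (shortW p A B).toAffine.Equation x y ↔ y ^ 2 = x ^ 3 + A * x + B := by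
  rw [WeierstrassCurve.Affine.equation_iff]
  simp [shortW]

theorem shortW_card (A B : ZMod p) (hΔ : (shortW p A B).Δ ≠ 0) :
    (shortW p A B).card
      = Nat.card {q : ZMod p × ZMod p // q.2 ^ 2 = q.1 ^ 3 + A * q.1 + B} + 1 := by
  rw [WeierstrassCurve.card, card_point_eq _ hΔ]
  congr 1
  apply Nat.card_congr
  exact Equiv.subtypeEquivRight fun q => shortW_equation p A B q.1 q.2

/-- **A2c**, curve form: `deg x(Frob P₀ - P₀) = #E(F_p)`. -/
theorem ratDeg_maninFun_eq_card (hp2 : p ≠ 2) (A B : ZMod p) (hΔ : (shortW p A B).Δ ≠ 0) :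
    ratDeg (maninFun p A B) = (shortW p A B).card := by
  have h : 4 * A ^ 3 + 27 * B ^ 2 ≠ 0 := by
    intro h0
    apply hΔ
    rw [shortW_Δ, h0, mul_zero]
  rw [ratDeg_maninFun p A B hp2 h, shortW_card p A B hΔ]

/-- **A2c**, trace form: `deg x(Frob P₀ - P₀) = p + 1 - a_p`. -/
theorem ratDeg_maninFun_eq_trace (hp2 : p ≠ 2) (A B : ZMod p) (hΔ : (shortW p A B).Δ ≠ 0) :
    (ratDeg (maninFun p A B) : ℤ) = p + 1 - (shortW p A B).traceOfFrobenius := by
  rw [ratDeg_maninFun_eq_card p hp2 A B hΔ, WeierstrassCurve.traceOfFrobenius, Nat.card_zmod]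
  ring

end Fermat.Agent.S52.H621
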