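import Mathlib
import Fermat.Agent.S52.H621.RatDeg

/-!
# S52 / Part A: multiplicativity of the degree of rational functions under composition

`ratDeg_comp : ratDeg (N(S) / D(S)) = ratDeg (N / D) * ratDeg S` (piece A2d).
-/

set_option autoImplicit false

open Polynomial

namespace Fermat.Agent.S52.H621

variable {F : Type*} [Field F]

/-- degree bound for the homogenisation evaluated at polynomials -/
theorem natDegree_homog_le (n m : ℕ) (N P Q : F[X]) (hP : P.natDegree ≤ m)
    (hQ : Q.natDegree ≤ m) : (homog n N P Q).natDegree ≤ n * m := by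
  unfold homog
  refine natDegree_sum_le_of_forall_le _ _ fun i hi => ?_
  have hi' : i ≤ n := Nat.lt_succ_iff.mp (Finset.mem_range.mp hi)
  have h1 : (P ^ i).natDegree ≤ i * m := natDegree_pow_le_of_le i hP
  have h2 : (Q ^ (n - i)).natDegree ≤ (n - i) * m := natDegree_pow_le_of_le (n - i) hQ
  have h3 : (algebraMap F F[X] (N.coeff i) * P ^ i).natDegree ≤ i * m := by
    rw [algebraMap_eq]
    exact (natDegree_C_mul_le _ _).trans h1
  calc (algebraMap F F[X] (N.coeff i) * P ^ i * Q ^ (n - i)).natDegree
      ≤ i * m + (n - i) * m := natDegree_mul_le_of_le h3 h2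
    _ = n * m := by rw [← add_mul, Nat.add_sub_cancel' hi']

/-- top coefficient of the homogenisation evaluated at polynomials -/
theorem coeff_homog (n m : ℕ) (N P Q : F[X]) (hP : P.natDegree ≤ m)
    (hQ : Q.natDegree ≤ m) :
    (homog n N P Q).coeff (n * m) = homog n N (P.coeff m) (Q.coeff m) := by
  unfold homog
  rw [finsetSum_coeff]
  refine Finset.sum_congr rfl fun i hi => ?_
  have hi' : i ≤ n := Nat.lt_succ_iff.mp (Finset.mem_range.mp hi)
  have h1 : (P ^ i).natDegree ≤ i * m := natDegree_pow_le_of_le i hP
  have h2 : (Q ^ (n - i)).natDegree ≤ (n - i) * m := natDegree_pow_le_of_le (n - i) hQ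
  have hnm : n * m = i * m + (n - i) * m := by rw [← add_mul, Nat.add_sub_cancel' hi']
  rw [algebraMap_eq, mul_assoc, coeff_C_mul, hnm, coeff_mul_add_eq_of_natDegree_le h1 h2,
    coeff_pow_of_natDegree_le hP, coeff_pow_of_natDegree_le hQ]
  simp [mul_assoc]

/-- The algebra map `F[X] → RatFunc F` as an `F`-algebra homomorphism. -/
noncomputable def toRatFuncAlgHom (F : Type*) [Field F] : F[X] →ₐ[F] RatFunc F :=
  IsScalarTower.toAlgHom F F[X] (RatFunc F)

@[simp] theorem toRatFuncAlgHom_apply (p : F[X]) :
    toRatFuncAlgHom F p = algebraMap F[X] (RatFunc F) p := rfl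

/-- **Core case**: coprime `N`, `D` and coprime `P`, `Q`. -/
theorem ratDeg_homog_div (N D P Q : F[X]) (hND : IsCoprime N D) (hPQ : IsCoprime P Q)
    (hQ : Q ≠ 0) :
    IsCoprime (homog (max N.natDegree D.natDegree) N P Q)
        (homog (max N.natDegree D.natDegree) D P Q) ∧
      max (homog (max N.natDegree D.natDegree) N P Q).natDegree
          (homog (max N.natDegree D.natDegree) D P Q).natDegree
        = max N.natDegree D.natDegree * max P.natDegree Q.natDegree := by
  set n := max N.natDegree D.natDegree with hn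
  set m := max P.natDegree Q.natDegree with hm
  have hPm : P.natDegree ≤ m := le_max_left _ _
  have hQm : Q.natDegree ≤ m := le_max_right _ _
  -- the leading coefficients
  have hlead : P.coeff m ≠ 0 ∨ Q.coeff m ≠ 0 := by
    rcases max_cases P.natDegree Q.natDegree with ⟨h1, -⟩ | ⟨h1, -⟩
    · by_cases hP0 : P = 0
      · right
        have : Q.natDegree = m := by
          have h2 : Q.natDegree ≤ P.natDegree := by
            have := le_max_right P.natDegree Q.natDegree
            omega
          rw [hP0, natDegree_zero] at h2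
          have : m = 0 := by rw [hm, h1, hP0, natDegree_zero]
          omega
        rw [← this]
        exact leadingCoeff_ne_zero.mpr hQ
      · left
        rw [hm, h1]
        exact leadingCoeff_ne_zero.mpr hP0
    · right
      rw [hm, h1]
      exact leadingCoeff_ne_zero.mpr hQ
  have htop := homog_ne_zero_of_isCoprime (L := F) N D hND n hn.symm (P.coeff m) (Q.coeff m) hlead
  rw [← coeff_homog n m N P Q hPm hQm, ← coeff_homog n m D P Q hPm hQm] at htop
  have hA := natDegree_homog_le n m N P Q hPm hQm
  have hB := natDegree_homog_le n m D P Q hPm hQm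
  refine ⟨?_, ?_⟩
  · -- coprimality
    refine isCoprime_of_irreducible_dvd ?_ ?_
    · rintro ⟨h1, h2⟩
      rcases htop with h | h
      · exact h (by rw [h1, coeff_zero])
      · exact h (by rw [h2, coeff_zero])
    · intro π hπ hπA hπB
      have : Fact (Irreducible π) := ⟨hπ⟩
      let φ : F[X] →ₐ[F] AdjoinRoot π := AdjoinRoot.mkₐ π
      have hφ : ∀ g : F[X], φ g = 0 ↔ π ∣ g := fun g => AdjoinRoot.mk_eq_zero
      have hA0 : homog n N (φ P) (φ Q) = 0 := by
        rw [← homog_map φ, hφ]; exact hπA
      have hB0 : homog n D (φ P) (φ Q) = 0 := by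
        rw [← homog_map φ, hφ]; exact hπB
      have hpq : φ P ≠ 0 ∨ φ Q ≠ 0 := by
        by_contra hcon
        push Not at hcon
        obtain ⟨h1, h2⟩ := hcon
        rw [hφ] at h1 h2
        obtain ⟨u, v, huv⟩ := hPQ
        have : π ∣ 1 := huv ▸ dvd_add (dvd_mul_of_dvd_right h1 u) (dvd_mul_of_dvd_right h2 v)
        exact hπ.not_isUnit (isUnit_of_dvd_one this)
      rcases homog_ne_zero_of_isCoprime (L := AdjoinRoot π) N D hND n hn.symm (φ P) (φ Q) hpq
        with h | h
      · exact h hA0
      · exact h hB0
  · -- degree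
    apply le_antisymm (max_le hA hB)
    rcases htop with h | h
    · exact le_max_of_le_left (le_natDegree_of_ne_zero h)
    · exact le_max_of_le_right (le_natDegree_of_ne_zero h)

/-- evaluation of a polynomial at a rational function, in terms of the homogenisation -/
theorem aeval_ratFunc_eq (N : F[X]) (n : ℕ) (hn : N.natDegree ≤ n) (S : RatFunc F) :
    aeval S N = algebraMap F[X] (RatFunc F) (homog n N S.num S.denom)
      / algebraMap F[X] (RatFunc F) S.denom ^ n := by
  have hq : algebraMap F[X] (RatFunc F) S.denom ≠ 0 := RatFunc.algebraMap_ne_zero S.denom_ne_zero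
  have h1 := homog_eq_of_ne_zero (L := RatFunc F) n N hn (algebraMap F[X] (RatFunc F) S.num)
    (algebraMap F[X] (RatFunc F) S.denom) hq
  rw [RatFunc.num_div_denom] at h1
  rw [← toRatFuncAlgHom_apply (homog n N S.num S.denom), homog_map, toRatFuncAlgHom_apply,
    toRatFuncAlgHom_apply, h1, mul_div_cancel_left₀ _ (pow_ne_zero n hq)]

/-- `ratDeg S = 0` iff `S` is constant. -/
theorem ratDeg_eq_zero_iff (S : RatFunc F) : ratDeg S = 0 ↔ ∃ c : F, S = RatFunc.C c := by
  constructor
  · intro h
    rw [ratDeg, Nat.max_eq_zero_iff] at h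
    obtain ⟨h1, h2⟩ := h
    refine ⟨S.num.coeff 0 / S.denom.coeff 0, ?_⟩
    conv_lhs => rw [← RatFunc.num_div_denom S]
    rw [eq_C_of_natDegree_eq_zero h1, eq_C_of_natDegree_eq_zero h2]
    simp only [coeff_C_zero, RatFunc.algebraMap_C]
    rw [map_div₀]
  · rintro ⟨c, rfl⟩
    exact ratDeg_C c

/-- **A2d, coprime form.** -/
theorem ratDeg_comp_of_isCoprime (N D : F[X]) (hND : IsCoprime N D) (S : RatFunc F) :
    ratDeg (aeval S N / aeval S D) = max N.natDegree D.natDegree * ratDeg S := by
  set n := max N.natDegree D.natDegree with hn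
  have hNn : N.natDegree ≤ n := le_max_left _ _
  have hDn : D.natDegree ≤ n := le_max_right _ _
  have hq : algebraMap F[X] (RatFunc F) S.denom ≠ 0 := RatFunc.algebraMap_ne_zero S.denom_ne_zero
  rw [aeval_ratFunc_eq N n hNn S, aeval_ratFunc_eq D n hDn S,
    div_div_div_cancel_right₀ (pow_ne_zero n hq)]
  obtain ⟨hcop, hdeg⟩ := ratDeg_homog_div N D S.num S.denom hND S.isCoprime_num_denom
    S.denom_ne_zero
  rw [← hn] at hcop hdeg
  by_cases hB : homog n D S.num S.denom = 0
  · rw [hB, map_zero, div_zero, ratDeg_zero]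
    rw [hB, natDegree_zero] at hdeg
    have hA : IsUnit (homog n N S.num S.denom) := by
      rw [hB] at hcop
      exact isCoprime_zero_right.mp hcop
    rw [natDegree_eq_zero_of_isUnit hA, max_self] at hdeg
    rw [ratDeg]
    exact hdeg
  · rw [ratDeg_div_of_isCoprime _ _ hB hcop, hdeg, ratDeg]

/-- **A2d**: the degree of a composition of rational functions is the product of the degrees.
Here the composition `R ∘ S` is written `N(S) / D(S)` for `R = N / D` (any representation
with `D ≠ 0`). -/
theorem ratDeg_comp (N D : F[X]) (hD : D ≠ 0) (S : RatFunc F) :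
    ratDeg (aeval S N / aeval S D)
      = ratDeg (algebraMap F[X] (RatFunc F) N / algebraMap F[X] (RatFunc F) D) * ratDeg S := by
  classical
  by_cases hS : ratDeg S = 0
  · -- `S` constant
    rw [hS, mul_zero]
    obtain ⟨c, rfl⟩ := (ratDeg_eq_zero_iff S).mp hS
    have h1 : ∀ p : F[X], aeval (RatFunc.C c : RatFunc F) p = RatFunc.C (p.eval c) := by
      intro p
      have : (RatFunc.C c : RatFunc F) = algebraMap F (RatFunc F) c := by
        rw [RatFunc.algebraMap_eq_C]
      rw [this, aeval_algebraMap_apply, ← RatFunc.algebraMap_eq_C]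
      simp
    rw [h1, h1, ← map_div₀, ratDeg_C]
  · -- `S` transcendental
    have htr : Transcendental F S := by
      apply RatFunc.transcendental_of_ne_C
      rintro ⟨c, hc⟩
      exact hS ((ratDeg_eq_zero_iff S).mpr ⟨c, by rw [hc]⟩)
    have hne : ∀ p : F[X], p ≠ 0 → aeval S p ≠ 0 := fun p hp h =>
      hp ((transcendental_iff.mp htr) p h)
    -- remove the gcd
    set R := algebraMap F[X] (RatFunc F) N / algebraMap F[X] (RatFunc F) D with hR
    have hRnd : algebraMap F[X] (RatFunc F) R.num / algebraMap F[X] (RatFunc F) R.denom = R :=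
      RatFunc.num_div_denom R
    have hcross : R.num * D = N * R.denom := by
      have h1 : algebraMap F[X] (RatFunc F) (R.num * D)
          = algebraMap F[X] (RatFunc F) (N * R.denom) := by
        rw [map_mul, map_mul]
        have hD' : algebraMap F[X] (RatFunc F) D ≠ 0 := RatFunc.algebraMap_ne_zero hD
        have hd' : algebraMap F[X] (RatFunc F) R.denom ≠ 0 :=
          RatFunc.algebraMap_ne_zero R.denom_ne_zero
        have := hRnd
        rw [hR] at this ⊢
        rw [div_eq_div_iff hd' hD'] at this
        exact this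
      exact (IsFractionRing.injective F[X] (RatFunc F)) h1
    have hcomp : aeval S N / aeval S D = aeval S R.num / aeval S R.denom := by
      rw [div_eq_div_iff (hne D hD) (hne _ R.denom_ne_zero), ← map_mul, ← map_mul, hcross]
    rw [hcomp, ratDeg_comp_of_isCoprime _ _ R.isCoprime_num_denom]
    rfl

/-- Special case: powers. -/
theorem ratDeg_pow (S : RatFunc F) (k : ℕ) : ratDeg (S ^ k) = k * ratDeg S := by
  have h := ratDeg_comp (Polynomial.X ^ k : F[X]) 1 one_ne_zero S
  simp only [map_pow, aeval_X, map_one, div_one] at h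
  rw [h]
  congr 1
  rw [← map_pow, ratDeg_algebraMap, natDegree_X_pow]

end Fermat.Agent.S52.H621
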